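import Fermat.Agent.S24.Mod.H997HolBase
import Fermat.Agent.S24.Deg.H457_Degree
import Fermat.Agent.S24.H324.FundIneq
import Fermat.Agent.S24.FFDegree
import Fermat.Agent.S24.Count

/-!
# Branch data of `X₀(N) → X(1)` in the Prelude's place language (helper997)

`F = FF N = modularFunctionFieldBar N`, `K = Kbar = ℚ̄`, `j = jF N`.

* `ord_sub_eq_one`      : `F / K(j)` is unramified over every `a ∉ {0, 1728}`;
* `ord_dvd_three`       : ramification indices over `j = 0` divide `3`;
* `ord_sub_dvd_two`     : ramification indices over `j = 1728` divide `2`;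
* `ord_inv_dvd_level`   : ramification indices over `j = ∞` divide `N`;
* `card_places_sub`, `card_places_zero`, `card_places_1728`, `card_places_inf` : the number of
  places over each point (`ψ(N)`, resp. the number of cycles of `ST`, `S`, `T` on
  `SL₂(ℤ)/Γ₀(N)`), with the closed formulas of `Fermat.Agent.S24.Count`;
* `sum_ord_sub`, `sum_ord_inv` : `∑ e_v = ψ(N)`.
-/

set_option autoImplicit false
set_option linter.style.haveILetI false
set_option linter.unusedSectionVars false

noncomputable section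

open AlgebraicCurve ModularCurve IntermediateField
open scoped MatrixGroups

namespace Fermat.Agent.Lib.X0Branch

open Fermat.Agent.S24

/-! ### Generalities on `LocalData` -/

section General

variable {K F : Type*} [Field K] [Field F] [Algebra K F] [CharZero K]
variable {C : Type*} [Field C] {X : Type*} [Finite X]
variable {t : F} (L : LocalData K F C X t)

/-- If `perm ^ k = 1` then every ramification index over `t = 0` divides `k`. -/
theorem ord_dvd_of_perm_pow (E : IntermediateField K F) (hE : E ≤ K⟮t⟯) [FiniteDimensional E F]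
    (hrank : Module.finrank E F = Nat.card X) (k : ℕ) (hk : L.perm ^ k = 1)
    (v : Place K F) (hv : 0 < v.ord t) : v.ord t ∣ (k : ℤ) := by
  obtain ⟨x, rfl⟩ := H117.exists_placeOf_eq L E hE hrank v hv
  exact H117.ord_t_dvd_of_pow_apply_eq L x k (by rw [hk]; rfl)

end General

/-! ### The modular function field -/

variable (N : ℕ) [NeZero N]

instance finiteDimensional_FF : FiniteDimensional ↥Kbar⟮jF N⟯ (FF N) :=
  (Deg457.degree_fields N).1

theorem finrank_FF : Module.finrank ↥Kbar⟮jF N⟯ (FF N) = Nat.card (XX N) :=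
  le_antisymm (Deg457.degree_fields N).2 (H997.analyticCore N).card_le_finrank

theorem finrank_FF_eq_psi : Module.finrank ↥Kbar⟮jF N⟯ (FF N) = dedekindPsi N := by
  rw [finrank_FF, card_XX]

/-- the local data over a finite point -/
def dataFin (a : Kbar) : LocalData Kbar (FF N) ℂ (XX N) (jF N - algebraMap Kbar (FF N) a) :=
  (H997.analyticCore N).dataFin a

/-- the local data over `∞` -/
def dataInf : LocalData Kbar (FF N) ℂ (XX N) (jF N)⁻¹ :=
  (H997.analyticCore N).dataInf

theorem dataFin_perm_generic (a : Kbar) (h0 : a ≠ 0) (h1 : a ≠ 1728) :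
    (dataFin N a).perm = 1 :=
  (H997.analyticCore N).dataFin_perm_generic a h0 h1

theorem dataFin_perm_zero :
    (dataFin N 0).perm = permOf N (ModularGroup.S * ModularGroup.T)⁻¹ := by
  unfold dataFin H997.AnalyticCore.dataFin
  rw [dif_pos rfl]
  rfl

theorem dataFin_perm_1728 : (dataFin N 1728).perm = permOf N ModularGroup.S⁻¹ := by
  have h0 : (1728 : Kbar) ≠ 0 := by norm_num
  unfold dataFin H997.AnalyticCore.dataFin
  rw [dif_neg h0, dif_pos rfl]
  rfl

theorem dataInf_perm : (dataInf N).perm = permOf N ModularGroup.T⁻¹ := rfl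

/-! ### Group theory in `SL₂(ℤ)` -/

theorem permOf_mul (g h : SL(2, ℤ)) : permOf N (g * h) = permOf N g * permOf N h := by
  ext x
  simp [permOf, mul_smul]

theorem permOf_pow (g : SL(2, ℤ)) (k : ℕ) : permOf N (g ^ k) = permOf N g ^ k := by
  induction k with
  | zero => rw [pow_zero, pow_zero]; exact H997.permOf_one N
  | succ n ih => rw [pow_succ, pow_succ, permOf_mul, ih]

theorem permOf_eq_one_of_normal {g : SL(2, ℤ)}
    (hg : ∀ h : SL(2, ℤ), h⁻¹ * g * h ∈ CongruenceSubgroup.Gamma0 N) : permOf N g = 1 := by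
  ext x
  obtain ⟨h, rfl⟩ := QuotientGroup.mk_surjective x
  show ((g * h : SL(2, ℤ)) : XX N) = (h : XX N)
  rw [QuotientGroup.eq]
  have := (CongruenceSubgroup.Gamma0 N).inv_mem (hg h)
  simpa [mul_assoc] using this

theorem neg_one_mem_Gamma0 : (-1 : SL(2, ℤ)) ∈ CongruenceSubgroup.Gamma0 N := by
  rw [CongruenceSubgroup.Gamma0_mem]
  simp

theorem permOf_neg_one : permOf N (-1) = 1 := by
  apply permOf_eq_one_of_normal
  intro h
  have : h⁻¹ * (-1) * h = -1 := by
    rw [mul_neg, mul_one, neg_mul, inv_mul_cancel]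
  rw [this]
  exact neg_one_mem_Gamma0 N

theorem S_sq : ModularGroup.S ^ 2 = (-1 : SL(2, ℤ)) := by
  apply Subtype.ext
  rw [Matrix.SpecialLinearGroup.coe_pow, ModularGroup.coe_S, Matrix.SpecialLinearGroup.coe_neg,
    Matrix.SpecialLinearGroup.coe_one]
  ext i j
  fin_cases i <;> fin_cases j <;> simp [pow_two, Matrix.mul_apply, Fin.sum_univ_two]

theorem ST_cube : (ModularGroup.S * ModularGroup.T) ^ 3 = (-1 : SL(2, ℤ)) := by
  apply Subtype.ext
  rw [Matrix.SpecialLinearGroup.coe_pow, Matrix.SpecialLinearGroup.coe_mul, ModularGroup.coe_S,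
    ModularGroup.coe_T, Matrix.SpecialLinearGroup.coe_neg, Matrix.SpecialLinearGroup.coe_one]
  ext i j
  fin_cases i <;> fin_cases j <;> simp [pow_succ, Matrix.mul_apply, Fin.sum_univ_two]

theorem conj_T_pow_mem_Gamma0 (h : SL(2, ℤ)) :
    h⁻¹ * ModularGroup.T ^ N * h ∈ CongruenceSubgroup.Gamma0 N := by
  rw [CongruenceSubgroup.Gamma0_mem]
  have hT : ((ModularGroup.T ^ N : SL(2, ℤ)) : Matrix (Fin 2) (Fin 2) ℤ) = !![1, (N : ℤ); 0, 1] := by
    have := ModularGroup.coe_T_zpow (N : ℤ)
    rwa [zpow_natCast] at this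
  have key : ((h⁻¹ * ModularGroup.T ^ N * h : SL(2, ℤ)) : Matrix (Fin 2) (Fin 2) ℤ) 1 0
      = -(N : ℤ) * (h.1 1 0) ^ 2 := by
    rw [Matrix.SpecialLinearGroup.coe_mul, Matrix.SpecialLinearGroup.coe_mul, hT,
      Matrix.SpecialLinearGroup.coe_inv, Matrix.adjugate_fin_two]
    simp [Matrix.mul_apply, Fin.sum_univ_two]
    ring
  rw [key]
  push_cast
  simp

theorem permOf_T_pow : permOf N ModularGroup.T ^ N = 1 := by
  rw [← permOf_pow]
  exact permOf_eq_one_of_normal N (conj_T_pow_mem_Gamma0 N)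

theorem permOf_S_sq : permOf N ModularGroup.S ^ 2 = 1 := by
  rw [← permOf_pow, S_sq, permOf_neg_one]

theorem permOf_ST_cube : permOf N (ModularGroup.S * ModularGroup.T) ^ 3 = 1 := by
  rw [← permOf_pow, ST_cube, permOf_neg_one]

/-! ### Ramification indices -/

theorem le_adjoin_sub (a : Kbar) : Kbar⟮jF N⟯ ≤ Kbar⟮jF N - algebraMap Kbar (FF N) a⟯ :=
  (FF.adjoin_sub_const_eq (jF N) a).ge

theorem le_adjoin_inv : Kbar⟮jF N⟯ ≤ Kbar⟮(jF N)⁻¹⟯ :=
  (FF.adjoin_inv_eq (jF N)).ge

/-- **Unramified outside `{0, 1728, ∞}`.** -/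
theorem ord_sub_eq_one (a : Kbar) (h0 : a ≠ 0) (h1 : a ≠ 1728) (v : Place Kbar (FF N))
    (hv : 0 < v.ord (jF N - algebraMap Kbar (FF N) a)) :
    v.ord (jF N - algebraMap Kbar (FF N) a) = 1 := by
  have h := ord_dvd_of_perm_pow (dataFin N a) Kbar⟮jF N⟯ (le_adjoin_sub N a) (finrank_FF N) 1
    (by rw [dataFin_perm_generic N a h0 h1, one_pow]) v hv
  have h' : v.ord (jF N - algebraMap Kbar (FF N) a) ∣ 1 := by simpa using h
  exact Int.eq_one_of_dvd_one hv.le h'

/-- The ramification indices over `j = 0` divide `3`. -/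
theorem ord_dvd_three (v : Place Kbar (FF N)) (hv : 0 < v.ord (jF N)) : v.ord (jF N) ∣ 3 := by
  have hv' : 0 < v.ord (jF N - algebraMap Kbar (FF N) 0) := by rwa [map_zero, sub_zero]
  have h := ord_dvd_of_perm_pow (dataFin N 0) Kbar⟮jF N⟯ (le_adjoin_sub N 0) (finrank_FF N) 3
    (by rw [dataFin_perm_zero, H997.permOf_inv, inv_pow, permOf_ST_cube, inv_one]) v hv'
  rw [map_zero, sub_zero] at h
  exact_mod_cast h

/-- The ramification indices over `j = 1728` divide `2`. -/
theorem ord_sub_dvd_two (v : Place Kbar (FF N))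
    (hv : 0 < v.ord (jF N - algebraMap Kbar (FF N) 1728)) :
    v.ord (jF N - algebraMap Kbar (FF N) 1728) ∣ 2 := by
  have h := ord_dvd_of_perm_pow (dataFin N 1728) Kbar⟮jF N⟯ (le_adjoin_sub N 1728) (finrank_FF N) 2
    (by rw [dataFin_perm_1728, H997.permOf_inv, inv_pow, permOf_S_sq, inv_one]) v hv
  exact_mod_cast h

/-- The ramification indices over `j = ∞` divide the level `N`. -/
theorem ord_inv_dvd_level (v : Place Kbar (FF N)) (hv : 0 < v.ord (jF N)⁻¹) :
    v.ord (jF N)⁻¹ ∣ (N : ℤ) :=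
  ord_dvd_of_perm_pow (dataInf N) Kbar⟮jF N⟯ (le_adjoin_inv N) (finrank_FF N) N
    (by rw [dataInf_perm, H997.permOf_inv, inv_pow, permOf_T_pow, inv_one]) v hv

/-! ### Counting places -/

instance finiteDimensional_sub (a : Kbar) :
    FiniteDimensional ↥Kbar⟮jF N - algebraMap Kbar (FF N) a⟯ (FF N) :=
  FF.finiteDimensional_adjoin_sub_const (jF N) a

instance finiteDimensional_inv : FiniteDimensional ↥Kbar⟮(jF N)⁻¹⟯ (FF N) :=
  FF.finiteDimensional_adjoin_inv (jF N)

theorem finrank_sub (a : Kbar) :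
    Module.finrank ↥Kbar⟮jF N - algebraMap Kbar (FF N) a⟯ (FF N) = Nat.card (XX N) := by
  rw [FF.finrank_adjoin_sub_const, finrank_FF]

theorem finrank_inv : Module.finrank ↥Kbar⟮(jF N)⁻¹⟯ (FF N) = Nat.card (XX N) := by
  rw [FF.finrank_adjoin_inv, finrank_FF]

/-- The places over `j = a`: finitely many, as many as the cycles of the local monodromy, and
`∑ e_v = ψ(N)`. -/
theorem places_sub (a : Kbar) :
    {v : Place Kbar (FF N) | 0 < v.ord (jF N - algebraMap Kbar (FF N) a)}.Finite ∧
      Nat.card ↥{v : Place Kbar (FF N) | 0 < v.ord (jF N - algebraMap Kbar (FF N) a)}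
        = numOrbits (dataFin N a).perm ∧
      ∑ᶠ v ∈ {v : Place Kbar (FF N) | 0 < v.ord (jF N - algebraMap Kbar (FF N) a)},
        v.ord (jF N - algebraMap Kbar (FF N) a) = (dedekindPsi N : ℤ) := by
  have h := H324.local_count (dataFin N a) (finrank_sub N a)
  rw [card_XX] at h
  exact h

theorem places_inv :
    {v : Place Kbar (FF N) | 0 < v.ord (jF N)⁻¹}.Finite ∧
      Nat.card ↥{v : Place Kbar (FF N) | 0 < v.ord (jF N)⁻¹} = cuspCount N ∧
      ∑ᶠ v ∈ {v : Place Kbar (FF N) | 0 < v.ord (jF N)⁻¹}, v.ord (jF N)⁻¹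
        = (dedekindPsi N : ℤ) := by
  have h := H324.local_count (dataInf N) (finrank_inv N)
  have hp : numOrbits (dataInf N).perm = cuspCount N := by
    rw [← numOrbits_T]
    exact (H997.analyticCore N).dataInf_perm
  rw [card_XX, hp] at h
  exact h

/-- Over `a ∉ {0, 1728}` there are exactly `ψ(N) = [F : K(j)]` places. -/
theorem card_places_sub (a : Kbar) (h0 : a ≠ 0) (h1 : a ≠ 1728) :
    Nat.card ↥{v : Place Kbar (FF N) | 0 < v.ord (jF N - algebraMap Kbar (FF N) a)}
      = dedekindPsi N := by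
  classical
  obtain ⟨hfin, -, hsum⟩ := places_sub N a
  rw [finsum_mem_eq_finite_toFinset_sum _ hfin] at hsum
  have h1' : ∀ v ∈ hfin.toFinset, v.ord (jF N - algebraMap Kbar (FF N) a) = 1 := by
    intro v hv
    exact ord_sub_eq_one N a h0 h1 v ((Set.Finite.mem_toFinset hfin).mp hv)
  rw [Finset.sum_congr rfl h1', Finset.sum_const, nsmul_eq_mul, mul_one] at hsum
  rw [Nat.card_eq_card_finite_toFinset hfin]
  exact_mod_cast hsum

/-- `3 · #{places over j = 0} = ψ(N) + 2 ν₃(N)`. -/
theorem card_places_zero :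
    3 * Nat.card ↥{v : Place Kbar (FF N) | 0 < v.ord (jF N)} = dedekindPsi N + 2 * nuThree N := by
  have h := (places_sub N 0).2.1
  simp only [map_zero, sub_zero] at h
  rw [h]
  have := (H997.analyticCore N).dataFin_zero_perm
  rw [show (dataFin N 0).perm = ((H997.analyticCore N).dataFin 0).perm from rfl, this,
    three_mul_numOrbits_ST]

/-- `2 · #{places over j = 1728} = ψ(N) + ν₂(N)`. -/
theorem card_places_1728 :
    2 * Nat.card ↥{v : Place Kbar (FF N) | 0 < v.ord (jF N - algebraMap Kbar (FF N) 1728)}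
      = dedekindPsi N + nuTwo N := by
  rw [(places_sub N 1728).2.1,
    show (dataFin N 1728).perm = ((H997.analyticCore N).dataFin 1728).perm from rfl,
    (H997.analyticCore N).dataFin_1728_perm, two_mul_numOrbits_S]

end Fermat.Agent.Lib.X0Branch
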